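/-
C1 nodal core, instantiation, block G (helper95): the standing hypotheses `Ur.Hyp` of block UR hold
for the inertia field, at all levels.
-/
import Fermat.Agent.S34.Nodal.Inst.Ur.Defs
import Fermat.Agent.S18.Gauss.Field
import Fermat.Agent.S18.Chart.DedUnif
import Fermat.Agent.Lib.UrBase.Inertia
import Fermat.Agent.BAD.Bridge.BaseHyp

set_option autoImplicit false

noncomputable section

namespace Fermat.Agent.S34.Nodal.Inst

open ModularCurve Fermat.Agent.S18 Fermat.Agent.S18.Vert Fermat.Agent.S24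
  Fermat.Agent.Lib.UrBase Fermat.Agent.Lib

/-- Quotients of integral series, from the normal form. -/
theorem isQuot_of_hasNf {K₀ : Type*} [Field K₀] {A₀ : ValuationSubring K₀} {ϖ₀ : K₀}
    {L : IntermediateField K₀ (LaurentSeries K₀)} (h₀ : IsUnif A₀ ϖ₀)
    (hN : Gauss.HasNf A₀ ϖ₀ L) : IsQuot A₀ L := by
  intro f
  by_cases hf : f = 0
  · refine ⟨0, 1, by rw [map_zero]; exact zero_mem L, by rw [map_one]; exact one_mem L,
      one_ne_zero, ?_⟩
    rw [hf]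
    simp
  obtain ⟨n, P, Q, hP, hQ, hP0, hQ0, h⟩ := hN f f.2 (fun h => hf (Subtype.ext h))
  have hϖ : ϖ₀ ≠ 0 := h₀.ne_zero
  have hQne : Q ≠ 0 := by
    rintro rfl
    exact hQ0 (map_zero _)
  have hC : ∀ m : ℕ, inc A₀ (HahnSeries.C (⟨ϖ₀, h₀.mem⟩ : A₀) ^ m) = Gauss.cst (ϖ₀ ^ m) := by
    intro m
    rw [map_pow, inc_C, ← map_pow]
  have hCne : ∀ m : ℕ, (HahnSeries.C (⟨ϖ₀, h₀.mem⟩ : A₀) ^ m : LaurentSeries A₀) ≠ 0 := by
    intro m h0
    have := hC m
    rw [h0, map_zero] at this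
    exact Gauss.cst_ne_zero (pow_ne_zero m hϖ) this.symm
  rcases le_total 0 n with hn | hn
  · obtain ⟨m, rfl⟩ := Int.eq_ofNat_of_zero_le hn
    refine ⟨HahnSeries.C (⟨ϖ₀, h₀.mem⟩ : A₀) ^ m * P, Q, ?_, hQ, hQne, ?_⟩
    · rw [map_mul, hC]
      exact mul_mem (Gauss.cst_mem _) hP
    · rw [map_mul, hC]
      rw [zpow_natCast] at h
      exact h
  · obtain ⟨m, hm⟩ := Int.eq_ofNat_of_zero_le (neg_nonneg.2 hn)
    have hn' : n = -(m : ℤ) := by omega
    subst hn'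
    refine ⟨P, HahnSeries.C (⟨ϖ₀, h₀.mem⟩ : A₀) ^ m * Q, hP, ?_, mul_ne_zero (hCne m) hQne, ?_⟩
    · rw [map_mul, hC]
      exact mul_mem (Gauss.cst_mem _) hQ
    · rw [map_mul, hC]
      have h1 : Gauss.cst (ϖ₀ ^ m) * Gauss.cst (ϖ₀ ^ (-(m : ℤ))) = 1 := by
        rw [← Gauss.cst_mul, zpow_neg, zpow_natCast, mul_inv_cancel₀ (pow_ne_zero m hϖ),
          Gauss.cst_one]
      calc (f : LaurentSeries K₀) * (Gauss.cst (ϖ₀ ^ m) * inc A₀ Q)
          = Gauss.cst (ϖ₀ ^ m) * ((f : LaurentSeries K₀) * S28.Export.iota A₀ Q) := by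
            show _ = Gauss.cst (ϖ₀ ^ m) * ((f : LaurentSeries K₀) * inc A₀ Q)
            ring
        _ = (Gauss.cst (ϖ₀ ^ m) * Gauss.cst (ϖ₀ ^ (-(m : ℤ)))) * S28.Export.iota A₀ P := by
            rw [h]; ring
        _ = inc A₀ P := by rw [h1, one_mul]; rfl

/-- The standing hypotheses of block UR for the inertia field, level `M` on both sides. -/
theorem hyp_inertia {q : ℕ} (hq : q.Prime) (A : ValuationSubring Kbar) (hA : A.LiesOverPrime q) (N N' : ℕ) :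
    Ur.Hyp A (InertiaField.K0 A) (modularFunctionFieldFull N) (modularFunctionFieldFull N') q where
  prime := hq
  lies := hA
  base := goodBase_inertia hq hA
  dvr := (BAD.Bridge.isUnif_A0 A q hq hA).isDiscreteValuationRing
  quot := isQuot_of_hasNf (BAD.Bridge.isUnif_A0 A q hq hA)
    (Gauss.hasNf_FK (BAD.Bridge.isUnif_A0 A q hq hA) N)
  quot' := isQuot_of_hasNf (BAD.Bridge.isUnif_A0 A q hq hA)
    (Gauss.hasNf_FK (BAD.Bridge.isUnif_A0 A q hq hA) N')

end Fermat.Agent.S34.Nodal.Inst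

end
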