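/-
C1 nodal core, instantiation, block G (helper95): series level calculus of Gauss reductions.

`HasRed A f r` : the Laurent series `f ∈ K((t))` is a quotient `P / Q` of `A`-integral series, `Q` of
nonzero reduction, and `r = red P / red Q`.  No function field is involved.
`IsIntHom A θ θk` : the endomorphism `θ` of `K((t))` preserves integral series and induces `θk` on
reductions (`t ↦ t ^ m`, `t ↦ ζ t`, coefficientwise action of the decomposition group).
`IsVal A F` : the Gauss ring of `F` is a valuation ring with maximal ideal `ker rho`.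
-/
import Fermat.Agent.S34.Nodal.Inst.Defs
import Fermat.Prelude.Def_ModularCurve_X0

set_option autoImplicit false

noncomputable section

namespace Fermat.Agent.S34.Nodal.Inst

open ModularCurve Fermat.Agent.S18.Vert

variable {K : Type*} [Field K] (A : ValuationSubring K)

/-- `f = P / Q`, `r = red P / red Q`. -/
def HasRed (f : LaurentSeries K) (r : LaurentSeries (kk A)) : Prop :=
  ∃ P Q : LaurentSeries A, red A Q ≠ 0 ∧ f * inc A Q = inc A P ∧ r * red A Q = red A P

variable {A}

theorem HasRed.unique {f : LaurentSeries K} {r r' : LaurentSeries (kk A)} (h : HasRed A f r)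
    (h' : HasRed A f r') : r = r' := by
  obtain ⟨P, Q, hQ, e, er⟩ := h
  obtain ⟨P', Q', hQ', e', er'⟩ := h'
  have h1 := red_mul_eq' e e'
  apply mul_right_cancel₀ (mul_ne_zero hQ hQ')
  calc r * (red A Q * red A Q') = (r * red A Q) * red A Q' := by ring
    _ = red A P * red A Q' := by rw [er]
    _ = red A P' * red A Q := h1
    _ = (r' * red A Q') * red A Q := by rw [er']
    _ = r' * (red A Q * red A Q') := by ring

theorem HasRed.add {f g : LaurentSeries K} {r s : LaurentSeries (kk A)} (h : HasRed A f r)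
    (h' : HasRed A g s) : HasRed A (f + g) (r + s) := by
  obtain ⟨P, Q, hQ, e, er⟩ := h
  obtain ⟨P', Q', hQ', e', er'⟩ := h'
  refine ⟨P * Q' + P' * Q, Q * Q', by rw [map_mul]; exact mul_ne_zero hQ hQ', ?_, ?_⟩
  · rw [map_add, map_mul, map_mul, map_mul, ← e, ← e']; ring
  · rw [map_add, map_mul, map_mul, map_mul, ← er, ← er']; ring

theorem HasRed.mul {f g : LaurentSeries K} {r s : LaurentSeries (kk A)} (h : HasRed A f r)
    (h' : HasRed A g s) : HasRed A (f * g) (r * s) := by
  obtain ⟨P, Q, hQ, e, er⟩ := h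
  obtain ⟨P', Q', hQ', e', er'⟩ := h'
  refine ⟨P * P', Q * Q', by rw [map_mul]; exact mul_ne_zero hQ hQ', ?_, ?_⟩
  · rw [map_mul, map_mul, ← e, ← e']; ring
  · rw [map_mul, map_mul, ← er, ← er']; ring

theorem hasRed_zero : HasRed A (0 : LaurentSeries K) 0 :=
  ⟨0, 1, by rw [map_one]; exact one_ne_zero, by simp, by simp⟩

theorem hasRed_one : HasRed A (1 : LaurentSeries K) 1 :=
  ⟨1, 1, by rw [map_one]; exact one_ne_zero, by simp, by simp⟩

theorem HasRed.sum {ι : Type*} (s : Finset ι) {f : ι → LaurentSeries K}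
    {r : ι → LaurentSeries (kk A)} (h : ∀ i ∈ s, HasRed A (f i) (r i)) :
    HasRed A (∑ i ∈ s, f i) (∑ i ∈ s, r i) := by
  classical
  induction s using Finset.induction_on with
  | empty => simpa using hasRed_zero
  | insert a s ha ih =>
    rw [Finset.sum_insert ha, Finset.sum_insert ha]
    exact (h a (Finset.mem_insert_self a s)).add
      (ih fun i hi => h i (Finset.mem_insert_of_mem hi))

theorem hasRed_inc (P : LaurentSeries A) : HasRed A (inc A P) (red A P) :=
  ⟨P, 1, by rw [map_one]; exact one_ne_zero, by simp, by simp⟩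

/-- The residue map of a Gauss ring computes the reduction. -/
theorem hasRed_rho {F : IntermediateField K (LaurentSeries K)} (y : gaussSubring A F) :
    HasRed A ((y : F) : LaurentSeries K) (rho A F y) := by
  obtain ⟨P, Q, -, -, hQ, e⟩ := y.2
  exact ⟨P, Q, hQ, e, rho_spec y hQ e⟩

variable (A) in
/-- `θ` preserves integral series and induces `θk` on the reductions. -/
def IsIntHom (θ : LaurentSeries K →+* LaurentSeries K)
    (θk : LaurentSeries (kk A) →+* LaurentSeries (kk A)) : Prop :=
  ∀ P : LaurentSeries A, ∃ P' : LaurentSeries A, inc A P' = θ (inc A P) ∧ red A P' = θk (red A P)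

theorem IsIntHom.hasRed {θ : LaurentSeries K →+* LaurentSeries K}
    {θk : LaurentSeries (kk A) →+* LaurentSeries (kk A)} (hθ : IsIntHom A θ θk)
    {f : LaurentSeries K} {r : LaurentSeries (kk A)} (h : HasRed A f r) :
    HasRed A (θ f) (θk r) := by
  obtain ⟨P, Q, hQ, e, er⟩ := h
  obtain ⟨P', hP', hP'r⟩ := hθ P
  obtain ⟨Q', hQ', hQ'r⟩ := hθ Q
  refine ⟨P', Q', ?_, ?_, ?_⟩
  · rw [hQ'r]
    exact (map_ne_zero_iff θk θk.injective).2 hQ
  · rw [hP', hQ', ← map_mul, e]
  · rw [hP'r, hQ'r, ← map_mul, er]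

theorem IsIntHom.comp {θ θ' : LaurentSeries K →+* LaurentSeries K}
    {θk θk' : LaurentSeries (kk A) →+* LaurentSeries (kk A)} (hθ : IsIntHom A θ θk)
    (hθ' : IsIntHom A θ' θk') : IsIntHom A (θ.comp θ') (θk.comp θk') := by
  intro P
  obtain ⟨P', h1, h2⟩ := hθ' P
  obtain ⟨P'', h3, h4⟩ := hθ P'
  exact ⟨P'', by rw [h3, h1]; rfl, by rw [h4, h2]; rfl⟩

theorem coeffMap_qExpand' {R S : Type*} [CommRing R] [CommRing S] (f : R →+* S) (n : ℕ)
    [NeZero n] (x : LaurentSeries R) : coeffMap f (qExpand R n x) = qExpand S n (coeffMap f x) := by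
  ext k
  by_cases hk : (n : ℤ) ∣ k
  · obtain ⟨m, rfl⟩ := hk
    rw [coeffMap_coeff, qExpand_coeff_mul, qExpand_coeff_mul, coeffMap_coeff]
  · rw [coeffMap_coeff, qExpand_coeff_of_not_dvd n _ hk, qExpand_coeff_of_not_dvd n _ hk, map_zero]

variable (A) in
theorem isIntHom_qExpand (m : ℕ) [NeZero m] : IsIntHom A (qExpand K m) (qExpand (kk A) m) :=
  fun P => ⟨qExpand A m P, coeffMap_qExpand' _ _ _, coeffMap_qExpand' _ _ _⟩

variable (A) in
/-- The Gauss ring of `F` is a valuation ring whose maximal ideal is the kernel of `rho`. -/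
def IsVal (F : IntermediateField K (LaurentSeries K)) : Prop :=
  ∀ y : F, y ≠ 0 → y ∈ gaussSubring A F ∨
    ∃ h : y⁻¹ ∈ gaussSubring A F, rho A F ⟨y⁻¹, h⟩ = 0

/-- An element of `F` some integral transform of which is Gauss integral as a series is Gauss
integral in `F`. -/
theorem IsVal.mem_of_hasRed {F : IntermediateField K (LaurentSeries K)} (hF : IsVal A F)
    {θ : LaurentSeries K →+* LaurentSeries K}
    {θk : LaurentSeries (kk A) →+* LaurentSeries (kk A)} (hθ : IsIntHom A θ θk) (y : F)
    {r : LaurentSeries (kk A)} (h : HasRed A (θ (y : LaurentSeries K)) r) :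
    ∃ hy : y ∈ gaussSubring A F, θk (rho A F ⟨y, hy⟩) = r := by
  have key : y ∈ gaussSubring A F := by
    rcases eq_or_ne y 0 with rfl | hy0
    · exact zero_mem _
    rcases hF y hy0 with h1 | ⟨h1, h2⟩
    · exact h1
    · exfalso
      have h3 := hθ.hasRed (hasRed_rho (⟨y⁻¹, h1⟩ : gaussSubring A F))
      rw [h2, map_zero] at h3
      have h4 := h.mul h3
      have h5 : θ (y : LaurentSeries K) * θ (((⟨y⁻¹, h1⟩ : gaussSubring A F) : F) :
          LaurentSeries K) = 1 := by
        rw [← map_mul]
        have : (y : LaurentSeries K) * ((y⁻¹ : F) : LaurentSeries K) = 1 := by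
          rw [← IntermediateField.coe_mul, mul_inv_cancel₀ hy0, IntermediateField.coe_one]
        rw [this, map_one]
      rw [h5, mul_zero] at h4
      exact one_ne_zero (hasRed_one.unique h4)
  exact ⟨key, (hθ.hasRed (hasRed_rho (⟨y, key⟩ : gaussSubring A F))).unique h⟩

/-- In a valuation ring an element of nonzero reduction is a unit. -/
theorem IsVal.inv_mem {F : IntermediateField K (LaurentSeries K)} (hF : IsVal A F)
    (y : gaussSubring A F) (hy : rho A F y ≠ 0) : (y : F)⁻¹ ∈ gaussSubring A F := by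
  have hy0 : (y : F) ≠ 0 := by
    intro h
    apply hy
    have : y = 0 := Subtype.ext h
    rw [this, map_zero]
  rcases hF (y : F)⁻¹ (inv_ne_zero hy0) with h | ⟨h, h2⟩
  · exact h
  · exfalso
    apply hy
    have : (⟨((y : F)⁻¹)⁻¹, h⟩ : gaussSubring A F) = y := Subtype.ext (inv_inv _)
    rw [← this, h2]

end Fermat.Agent.S34.Nodal.Inst

end
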