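/-
C1 nodal core, instantiation, block G (helper248): the good level `M` at `ℚ̄` level.

For a prime `q ∤ M`, a valuation subring `A` of `ℚ̄` over `q` and a base coordinate
`D : S18.BaseData M q`:
* `hyp_inertia`   : the hypotheses `Ur.Hyp` of the transfer for the inertia field;
* `int_level`, `int_level_inv` : `n`-root closedness of `bb A (FN M) x'^(±1)`  (G2);
* `fin_level`     : `bb A (FN M) x'` is finite over `k[xb]`                     (G2, `fin_b1`).
-/
import Fermat.Agent.S34.Nodal.Inst.G.Dict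
import Fermat.Agent.S34.Nodal.Inst.Ur.Fields
import Fermat.Agent.Lib.UrBase.Inertia
import Fermat.Agent.S18.Export.IsChartBase
import Fermat.Agent.S18.Descent.DVRUnif

set_option autoImplicit false

noncomputable section

namespace Fermat.Agent.S34.Nodal.Inst.G

open ModularCurve Fermat.Agent.S18.Vert Fermat.Agent.S18 Fermat.Agent.S18.Descent
  Fermat.Agent.Lib.UrBase Fermat.Agent.Lib Fermat.Agent.S24

variable (A : ValuationSubring Kbar) {q : ℕ}

/-- `q` is a uniformiser of the valuation ring of the inertia field. -/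
theorem isUnif_inertia (hq : q.Prime) (hA : A.LiesOverPrime q) :
    IsUnif (restrict A (InertiaField.K0 A)) (q : InertiaField.K0 A) := by
  have := InertiaField.isDiscreteValuationRing_A0 A q hq hA
  have h := isUnif_of_irreducible (InertiaField.A0 A) (q : InertiaField.A0 A)
    (InertiaField.irreducible_natCast_A0 A q hq hA)
  have h' : IsUnif (InertiaField.A0 A) (q : InertiaField.K0 A) := by simpa using h
  exact h'

theorem hyp_inertia (hq : q.Prime) (hA : A.LiesOverPrime q) (N M : ℕ) :
    Ur.Hyp A (InertiaField.K0 A) (modularFunctionFieldFull N) (modularFunctionFieldFull M) q where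
  prime := hq
  lies := hA
  base := goodBase_inertia hq hA
  dvr := InertiaField.isDiscreteValuationRing_A0 A q hq hA
  quot := isQuot_of_hasNf (Gauss.hasNf_FK (isUnif_inertia A hq hA) N) (isUnif_inertia A hq hA)
  quot' := isQuot_of_hasNf (Gauss.hasNf_FK (isUnif_inertia A hq hA) M) (isUnif_inertia A hq hA)

section Level

variable {A} {M : ℕ} [NeZero M] [Fact q.Prime]

theorem toBar_xK (K₀ : IntermediateField ℚ Kbar) (D : BaseData M q) :
    toBar (modularFunctionFieldFull M) K₀ (D.xK K₀) = D.xK Kbar :=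
  Export.baseChangeMap_xK D _

/-- **(G2)** `n`-root closedness of the reduction of the first chart of the good level. -/
theorem int_level (hA : A.LiesOverPrime q) (hqM : ¬ q ∣ M) (D : BaseData M q) {n : ℕ}
    (hn : 0 < n) (y : gaussSubring A (FK Kbar M))
    (hy : rho A (FK Kbar M) y ^ n ∈ bb A (FK Kbar M) (D.xK Kbar)) :
    rho A (FK Kbar M) y ∈ bb A (FK Kbar M) (D.xK Kbar) := by
  have hq : q.Prime := Fact.out
  have h₀ := isUnif_inertia A hq hA
  have hℓA : (q : InertiaField.K0 A) / (q : InertiaField.K0 A) ∈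
      restrict A (InertiaField.K0 A) := by
    rw [div_self h₀.ne_zero]
    exact (restrict A (InertiaField.K0 A)).one_mem
  obtain ⟨Ow, hG, hV, hx, -, hC, -, -⟩ := Export.exists_good_model h₀ hqM hℓA D
  have key := Ur.int_of (hyp_inertia A hq hA M M) (D.xK (InertiaField.K0 A)) n
    (fun y hy => int_of_isChart (Gauss.hasNf_FK h₀ M) hG hV hx hC hn y hy)
  rw [toBar_xK] at key
  exact key y hy

/-- **(G2)** `n`-root closedness of the reduction of the second chart of the good level. -/
theorem int_level_inv (hA : A.LiesOverPrime q) (hqM : ¬ q ∣ M) (D : BaseData M q) {n : ℕ}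
    (hn : 0 < n) (y : gaussSubring A (FK Kbar M))
    (hy : rho A (FK Kbar M) y ^ n ∈ bb A (FK Kbar M) (D.xK Kbar)⁻¹) :
    rho A (FK Kbar M) y ∈ bb A (FK Kbar M) (D.xK Kbar)⁻¹ := by
  have hq : q.Prime := Fact.out
  have h₀ := isUnif_inertia A hq hA
  have hℓA : (q : InertiaField.K0 A) / (q : InertiaField.K0 A) ∈
      restrict A (InertiaField.K0 A) := by
    rw [div_self h₀.ne_zero]
    exact (restrict A (InertiaField.K0 A)).one_mem
  obtain ⟨Ow, hG, hV, -, hx, -, hC, -⟩ := Export.exists_good_model h₀ hqM hℓA D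
  have key := Ur.int_of (hyp_inertia A hq hA M M) (D.xK (InertiaField.K0 A))⁻¹ n
    (fun y hy => int_of_isChart (Gauss.hasNf_FK h₀ M) hG hV hx hC hn y hy)
  rw [map_inv₀, toBar_xK] at key
  exact key y hy

theorem fin_level_aux (hA : A.LiesOverPrime q) (hqM : ¬ q ∣ M) (D : BaseData M q)
    (x : FK Kbar M)
    (hx : toBar (modularFunctionFieldFull M) (InertiaField.K0 A) (D.xK (InertiaField.K0 A)) = x) :
    ∃ (hmem : x ∈ gaussSubring A (FK Kbar M)) (S : Finset (bb A (FK Kbar M) x)),
      ∀ y : bb A (FK Kbar M) x, y ∈ Submodule.span (kk A)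
        {z : bb A (FK Kbar M) x | ∃ g ∈ S, ∃ a : ℕ, z = toBB x (self_mem_chart' hmem) ^ a * g} := by
  subst hx
  have hq : q.Prime := Fact.out
  have h₀ := isUnif_inertia A hq hA
  have hℓA : (q : InertiaField.K0 A) / (q : InertiaField.K0 A) ∈
      restrict A (InertiaField.K0 A) := by
    rw [div_self h₀.ne_zero]
    exact (restrict A (InertiaField.K0 A)).one_mem
  obtain ⟨Ow, hG, hV, hx, -, -, -, hcov⟩ := Export.exists_good_model h₀ hqM hℓA D
  have hL := Gauss.hasNf_FK h₀ M
  have hmem₀ : D.xK (InertiaField.K0 A) ∈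
      gaussSubring (restrict A (InertiaField.K0 A)) (FK (InertiaField.K0 A) M) :=
    (mem_gauss_iff hL hG h₀ _).mpr hx.mem
  have hfin₀ := fin_of_span hmem₀ (by
    obtain ⟨S, hS, hspan⟩ := hcov.fin₁
    exact ⟨S, fun e he => (mem_chart'_iff hL hG hV hx e).mpr (hS e he),
      fun b hb => hspan b ((mem_chart'_iff hL hG hV hx b).mp hb)⟩)
  have H := hyp_inertia A hq hA M M
  obtain ⟨S, hS⟩ := Ur.fin_of H (D.xK (InertiaField.K0 A)) _ hfin₀
  refine ⟨toBar_mem_gauss hmem₀, S, fun y => ?_⟩
  have e : Ur.bbEquiv H (D.xK (InertiaField.K0 A))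
      (toBB (D.xK (InertiaField.K0 A)) (self_mem_chart' hmem₀)) =
      toBB _ (self_mem_chart' (toBar_mem_gauss hmem₀)) := by
    apply Subtype.ext
    rw [Ur.coe_bbEquiv]
    exact (rho_toBar ⟨_, hmem₀⟩).symm
  rw [← e]
  exact hS y

/-- **(G2)** the reduction of the first chart of the good level is finite over `k[xb]`
(the field `fin_b1` with `xb = toBB x' _`). -/
theorem fin_level (hA : A.LiesOverPrime q) (hqM : ¬ q ∣ M) (D : BaseData M q) :
    ∃ (hmem : D.xK Kbar ∈ gaussSubring A (FK Kbar M))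
      (S : Finset (bb A (FK Kbar M) (D.xK Kbar))),
      ∀ y : bb A (FK Kbar M) (D.xK Kbar), y ∈ Submodule.span (kk A)
        {z : bb A (FK Kbar M) (D.xK Kbar) |
          ∃ g ∈ S, ∃ a : ℕ, z = toBB (D.xK Kbar) (self_mem_chart' hmem) ^ a * g} :=
  fin_level_aux hA hqM D _ (toBar_xK _ D)

end Level

end Fermat.Agent.S34.Nodal.Inst.G

end
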