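/-
C1 nodal core, instantiation, block G.  TASK G-A1b (proofs: helper185): the lemma
`isIntegral_mul_pow` of `Inst/G/Integral.lean`, proved here under the name `isIntegral_mul_pow_aux`
(Mathlib only).
-/
import Mathlib

set_option autoImplicit false

namespace Fermat.Agent.S34.Nodal.Inst

open Polynomial

/-- a root of a monic polynomial whose coefficients are integral is integral -/
theorem isIntegral_of_monic_of_coeff_isIntegral {A F : Type*} [CommRing A] [Field F] [Algebra A F]
    (p : F[X]) (hp : p.Monic) (hc : ∀ i, IsIntegral A (p.coeff i)) {y : F} (hy : p.eval y = 0) :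
    IsIntegral A y := by
  have hl : p ∈ lifts (algebraMap (integralClosure A F) F) :=
    (lifts_iff_coeff_lifts p).2 fun i => ⟨⟨p.coeff i, hc i⟩, rfl⟩
  obtain ⟨r, hr, -, hrm⟩ := lifts_and_natDegree_eq_and_monic hl hp
  have h1 : IsIntegral (integralClosure A F) y := ⟨r, hrm, by rw [← eval_map, hr]; exact hy⟩
  exact isIntegral_trans y h1

variable {K F : Type*} [Field K] [Field F] [Algebra K F]

/-- every element of `K[a b]` becomes integral over `K[a]` after multiplication by a large power of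
`v = a ^ q / b` -/
theorem exists_forall_isIntegral_mul_pow {a b : F} (q : ℕ) (hb : b ≠ 0)
    (hv : IsIntegral (Algebra.adjoin K {a}) (a ^ q / b)) (c : F)
    (hc : c ∈ Algebra.adjoin K {a * b}) :
    ∃ e : ℕ, ∀ e', e ≤ e' → IsIntegral (Algebra.adjoin K {a}) (c * (a ^ q / b) ^ e') := by
  have ha : IsIntegral (Algebra.adjoin K {a}) a :=
    isIntegral_algebraMap (R := Algebra.adjoin K {a}) (A := F)
      (x := ⟨a, Algebra.self_mem_adjoin_singleton K a⟩)
  induction hc using Algebra.adjoin_induction with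
  | mem x hx =>
    rw [Set.mem_singleton_iff] at hx
    subst hx
    refine ⟨1, fun e' he' => ?_⟩
    obtain ⟨n, rfl⟩ := Nat.exists_eq_add_of_le he'
    have h1 : a * b * (a ^ q / b) ^ (1 + n) = a ^ (q + 1) * (a ^ q / b) ^ n := by
      rw [pow_add, pow_one, pow_succ]
      field_simp
    rw [h1]
    exact (ha.pow _).mul (hv.pow _)
  | algebraMap r =>
    refine ⟨0, fun e' _ => ?_⟩
    exact (isIntegral_algebraMap (R := Algebra.adjoin K {a}) (A := F)
      (x := algebraMap K _ r)).mul (hv.pow _)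
  | add x y _ _ hx hy =>
    obtain ⟨e1, h1⟩ := hx
    obtain ⟨e2, h2⟩ := hy
    refine ⟨max e1 e2, fun e' he' => ?_⟩
    rw [add_mul]
    exact (h1 e' ((le_max_left _ _).trans he')).add (h2 e' ((le_max_right _ _).trans he'))
  | mul x y _ _ hx hy =>
    obtain ⟨e1, h1⟩ := hx
    obtain ⟨e2, h2⟩ := hy
    refine ⟨e1 + e2, fun e' he' => ?_⟩
    obtain ⟨n, rfl⟩ := Nat.exists_eq_add_of_le he'
    have h3 : x * y * (a ^ q / b) ^ (e1 + e2 + n) =
        (x * (a ^ q / b) ^ e1) * (y * (a ^ q / b) ^ (e2 + n)) := by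
      rw [add_assoc, pow_add]
      ring
    rw [h3]
    exact (h1 e1 le_rfl).mul (h2 (e2 + n) (Nat.le_add_right _ _))

theorem isIntegral_mul_pow_aux {a b y : F} (q : ℕ) (hb : b ≠ 0)
    (hv : IsIntegral (Algebra.adjoin K {a}) (a ^ q / b))
    (hy : IsIntegral (Algebra.adjoin K {a * b}) y) :
    ∃ e : ℕ, IsIntegral (Algebra.adjoin K {a}) (y * (a ^ q / b) ^ e) := by
  obtain ⟨p, hpm, hpy⟩ := hy
  set P : F[X] := p.map (algebraMap (Algebra.adjoin K {a * b}) F) with hP
  have hPm : P.Monic := hpm.map _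
  have hPy : P.eval y = 0 := by rw [hP, eval_map]; exact hpy
  have hex : ∀ i, ∃ e : ℕ, ∀ e', e ≤ e' →
      IsIntegral (Algebra.adjoin K {a}) (P.coeff i * (a ^ q / b) ^ e') := by
    intro i
    rw [hP, coeff_map]
    exact exists_forall_isIntegral_mul_pow q hb hv _ (p.coeff i).2
  choose E hE using hex
  set e : ℕ := (Finset.range P.natDegree).sup E with he
  refine ⟨e, ?_⟩
  refine isIntegral_of_monic_of_coeff_isIntegral (P.scaleRoots ((a ^ q / b) ^ e))
    ((monic_scaleRoots_iff _).2 hPm) (fun i => ?_) ?_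
  · rw [coeff_scaleRoots]
    rcases lt_trichotomy i P.natDegree with hi | hi | hi
    · rw [← pow_mul]
      refine hE i _ ?_
      have h1 : E i ≤ e := Finset.le_sup (f := E) (Finset.mem_range.2 hi)
      have h2 : 1 ≤ P.natDegree - i := by omega
      calc E i ≤ e := h1
        _ = e * 1 := (mul_one e).symm
        _ ≤ e * (P.natDegree - i) := Nat.mul_le_mul_left e h2
    · rw [hi, hPm.coeff_natDegree, Nat.sub_self, pow_zero, mul_one]
      exact isIntegral_one
    · rw [coeff_eq_zero_of_natDegree_lt hi, zero_mul]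
      exact isIntegral_zero
  · rw [mul_comm, scaleRoots_eval_mul, hPy, mul_zero]

end Fermat.Agent.S34.Nodal.Inst
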