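/-
C1 nodal core, instantiation, block G (helper95).  TASK G-A1: integrality bookkeeping over the rings
`K[a] = Algebra.adjoin K {a}` inside a field `F` (Mathlib only).

Proofs.
`isIntegral_adjoin_trans`: `Algebra.adjoin K {x} ≤ integralClosure (Algebra.adjoin K {a}) F`
(as sets; `Algebra.adjoin_induction`: constants, `x`, sums, products), so every coefficient of a
monic equation of `y` is integral over `K[a]`; conclude with `isIntegral_trans` (make
`Algebra.IsIntegral K[a] (K[a][x])`, or use `IsIntegral.tower_top`-free route: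
`integralClosure_idem` / `IsIntegral.of_mem_closure`-style: `y` is integral over the subalgebra
`integralClosure K[a] F`, hence lies in it by `integralClosure_idem`).
`isIntegral_adjoin_map`: `g` fixes `K[x]` pointwise (`Algebra.adjoin_induction`), apply `g` to a monic
equation (`IsIntegral.map` for the `K[x]`-algebra hom built from `g`).
`isIntegral_mul_pow`: let `v = a ^ q / b`.  Take a monic equation
`y ^ m + ∑_{i ≥ 1} c_i y ^ (m - i) = 0`, `c_i ∈ K[a b]`, i.e. `c_i = ∑_{l ≤ D} γ_{i l} (a b) ^ l`.  For
`e ≥ D`: `(y v ^ e) ^ m + ∑ c_i v ^ (e i) (y v ^ e) ^ (m - i) = 0` and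
`(a b) ^ l * v ^ (e i) = a ^ (l (q + 1)) * v ^ (e i - l)` is integral over `K[a]` for `i ≥ 1`.
Alternative: `R = integralClosure K[a] F`, `a b = a ^ (q + 1) / v ∈ R[1 / v]`, and
`IsIntegral.exists_multiple_integral_of_isLocalization`.
-/
import Mathlib
import Fermat.Agent.S34.Nodal.Inst.G.IntegralPow

set_option autoImplicit false

namespace Fermat.Agent.S34.Nodal.Inst

variable {K F : Type*} [Field K] [Field F] [Algebra K F]

theorem isIntegral_adjoin_trans {a x y : F} (hx : IsIntegral (Algebra.adjoin K {a}) x)
    (hy : IsIntegral (Algebra.adjoin K {x}) y) : IsIntegral (Algebra.adjoin K {a}) y := by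
  have hmem : ∀ z ∈ Algebra.adjoin K {x}, IsIntegral (Algebra.adjoin K {a}) z := by
    intro z hz
    induction hz using Algebra.adjoin_induction with
    | mem z hz =>
      rw [Set.mem_singleton_iff] at hz
      rw [hz]
      exact hx
    | algebraMap r =>
      exact isIntegral_algebraMap (R := Algebra.adjoin K {a}) (A := F)
        (x := algebraMap K (Algebra.adjoin K {a}) r)
    | add z w _ _ hz hw => exact hz.add hw
    | mul z w _ _ hz hw => exact hz.mul hw
  let φ : Algebra.adjoin K {x} →+* integralClosure (Algebra.adjoin K {a}) F :=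
    { toFun := fun z => ⟨z.1, hmem z.1 z.2⟩
      map_one' := rfl
      map_mul' := fun _ _ => rfl
      map_zero' := rfl
      map_add' := fun _ _ => rfl }
  have h1 : IsIntegral (integralClosure (Algebra.adjoin K {a}) F) y :=
    IsIntegral.map_of_comp_eq φ (RingHom.id F) rfl hy
  exact isIntegral_trans y h1

theorem isIntegral_adjoin_map (g : F ≃ₐ[K] F) {x y : F} (hg : g x = x)
    (hy : IsIntegral (Algebra.adjoin K {x}) y) : IsIntegral (Algebra.adjoin K {x}) (g y) := by
  have hfix : ∀ z ∈ Algebra.adjoin K {x}, g z = z := by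
    intro z hz
    induction hz using Algebra.adjoin_induction with
    | mem z hz =>
      rw [Set.mem_singleton_iff] at hz
      rw [hz]
      exact hg
    | algebraMap r => exact g.commutes r
    | add z w _ _ hz hw => rw [map_add, hz, hw]
    | mul z w _ _ hz hw => rw [map_mul, hz, hw]
  refine IsIntegral.map_of_comp_eq (RingHom.id (Algebra.adjoin K {x})) (g : F →+* F) ?_ hy
  ext z
  exact (hfix z.1 z.2).symm

theorem isIntegral_mul_pow {a b y : F} (q : ℕ) (hb : b ≠ 0)
    (hv : IsIntegral (Algebra.adjoin K {a}) (a ^ q / b))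
    (hy : IsIntegral (Algebra.adjoin K {a * b}) y) :
    ∃ e : ℕ, IsIntegral (Algebra.adjoin K {a}) (y * (a ^ q / b) ^ e) :=
  isIntegral_mul_pow_aux q hb hv hy

/-- Integrality of the trace, in a tower `K[x'] ⊆ F' ⊆ F`.
Proof: `Algebra.adjoin K {algebraMap F' F x'}` is the image of `Algebra.adjoin K {x'}`
(`AlgHom.map_adjoin`, `Set.image_singleton`), so `y` is integral over `Algebra.adjoin K {x'}` acting
through `F'` (`IsIntegral` only depends on the image of the base ring: push a monic equation), then
`Algebra.isIntegral_trace`. -/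
theorem isIntegral_trace_adjoin {F' : Type*} [Field F'] [Algebra K F'] [Algebra F' F]
    [IsScalarTower K F' F] [FiniteDimensional F' F] {x' : F'} {y : F}
    (hy : IsIntegral (Algebra.adjoin K {algebraMap F' F x'}) y) :
    IsIntegral (Algebra.adjoin K {x'}) (Algebra.trace F' F y) := by
  have hmap : (Algebra.adjoin K {x'}).map (IsScalarTower.toAlgHom K F' F) =
      Algebra.adjoin K {algebraMap F' F x'} := by
    rw [AlgHom.map_adjoin, Set.image_singleton]
    rfl
  have hlift : ∀ z : Algebra.adjoin K {algebraMap F' F x'},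
      ∃ w : Algebra.adjoin K {x'}, algebraMap F' F w.1 = z.1 := by
    rintro ⟨z, hz⟩
    rw [← hmap] at hz
    obtain ⟨w, hw, hwz⟩ := hz
    exact ⟨⟨w, hw⟩, hwz⟩
  choose e he using hlift
  have hinj : Function.Injective (algebraMap F' F) := (algebraMap F' F).injective
  let φ : Algebra.adjoin K {algebraMap F' F x'} →+* Algebra.adjoin K {x'} :=
    { toFun := e
      map_one' := Subtype.ext (hinj (by rw [he]; simp))
      map_mul' := fun z w => Subtype.ext (hinj (by rw [he]; simp [he]))
      map_zero' := Subtype.ext (hinj (by rw [he]; simp))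
      map_add' := fun z w => Subtype.ext (hinj (by rw [he]; simp [he])) }
  have h1 : IsIntegral (Algebra.adjoin K {x'}) y := by
    refine IsIntegral.map_of_comp_eq φ (RingHom.id F) ?_ hy
    ext z
    exact he z
  exact Algebra.isIntegral_trace h1

end Fermat.Agent.S34.Nodal.Inst
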