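/-
C1 nodal core, instantiation, block G (helper95): the trace trick.

`T : F → F'` is the trace along `α`.  Its expansion is
`(T y)(t ^ q) = y(t ^ q) + ∑_{b < q} (w y)(ζ ^ b t)`, and the `q` last terms have the same reduction.
Hence for `y` integral at both valuations `T y` is Gauss integral and `rho (T y) = rho y`.
Consequences (abstract forms of the fields `red_chart1`, `red_chart2`, `int1`, `int2` of
`Contracts`): no normality, no count of extensions of valuations is needed.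
-/
import Fermat.Agent.S34.Nodal.Inst.G.HasRed

set_option autoImplicit false

noncomputable section

namespace Fermat.Agent.S34.Nodal.Inst

open ModularCurve Fermat.Agent.S18.Vert

variable {K : Type*} [Field K] {A : ValuationSubring K}
variable {F F' : IntermediateField K (LaurentSeries K)} {w : F ≃ₐ[K] F}

/-- The hypotheses on the trace. -/
structure TraceData (A : ValuationSubring K) (F F' : IntermediateField K (LaurentSeries K))
    (w : F ≃ₐ[K] F) (q : ℕ) [NeZero q] (T : F → F') : Prop where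
  val : IsVal A F'
  char : (q : kk A) = 0
  expansion : ∃ θ : ℕ → LaurentSeries K →+* LaurentSeries K,
    (∀ b, IsIntHom A (θ b) (RingHom.id _)) ∧
    ∀ y : F, qExpand K q (T y : LaurentSeries K) =
      qExpand K q (y : LaurentSeries K) + ∑ b ∈ Finset.range q, θ b ((w y : F) : LaurentSeries K)

/-- **The trace trick.** -/
theorem TraceData.rho_trace {q : ℕ} [NeZero q] {T : F → F'} (D : TraceData A F F' w q T)
    (y : OO A F w) : ∃ h : T y ∈ gaussSubring A F', rho A F' ⟨T y, h⟩ = (red2 A F w y).1 := by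
  obtain ⟨θ, hθ, hT⟩ := D.expansion
  have h1 := (isIntHom_qExpand A q).hasRed (hasRed_rho (⟨y, y.2.1⟩ : gaussSubring A F))
  have h2 : ∀ b ∈ Finset.range q, HasRed A (θ b ((w y : F) : LaurentSeries K))
      (rho A F ⟨w y, y.2.2⟩) := fun b _ =>
    (hθ b).hasRed (hasRed_rho (⟨w y, y.2.2⟩ : gaussSubring A F))
  have h3 := h1.add (HasRed.sum _ h2)
  have hq0 : (q : LaurentSeries (kk A)) = 0 := by
    rw [← map_natCast (algebraMap (kk A) (LaurentSeries (kk A))) q, D.char, map_zero]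
  rw [Finset.sum_const, Finset.card_range, nsmul_eq_mul, hq0, zero_mul, add_zero] at h3
  have h4 : HasRed A (qExpand K q (T y : LaurentSeries K))
      (qExpand (kk A) q (rho A F ⟨y, y.2.1⟩)) := by
    rw [hT]
    exact h3
  obtain ⟨hy, e⟩ := D.val.mem_of_hasRed (isIntHom_qExpand A q) (T y) h4
  exact ⟨hy, qExpand_injective q e⟩

/-- Abstract form of `red_chart1` (first component). -/
theorem TraceData.rho_mem_bb {q : ℕ} [NeZero q] {T : F → F'} (D : TraceData A F F' w q T)
    {x' : F'} (y : OO A F w) (hy : IsIntegral (Algebra.adjoin K {x'}) (T y)) :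
    (red2 A F w y).1 ∈ bb A F' x' := by
  obtain ⟨h, e⟩ := D.rho_trace y
  exact ⟨⟨T y, h⟩, ⟨h, hy⟩, e⟩

/-- The image of an element of `OO` under the involution. -/
def wOO (hww : ∀ y, w (w y) = y) (y : OO A F w) : OO A F w :=
  ⟨w y, ⟨y.2.2, by
    show w (w (y : F)) ∈ gaussSubring A F
    rw [hww]; exact y.2.1⟩⟩

theorem red2_wOO_fst (hww : ∀ y, w (w y) = y) (y : OO A F w) :
    (red2 A F w (wOO hww y)).1 = (red2 A F w y).2 := rfl

/-- **Abstract form of `red_chart1`.** -/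
theorem TraceData.red_chart1 {q : ℕ} [NeZero q] {T : F → F'} (D : TraceData A F F' w q T)
    (hww : ∀ y, w (w y) = y) {x' : F'} {x : F}
    (hw : ∀ y, IsIntegral (Algebra.adjoin K {x}) y → IsIntegral (Algebra.adjoin K {x}) (w y))
    (hT : ∀ y, IsIntegral (Algebra.adjoin K {x}) y → IsIntegral (Algebra.adjoin K {x'}) (T y))
    (y : OO A F w) (hy : (y : F) ∈ chart A F w x) :
    (red2 A F w y).1 ∈ bb A F' x' ∧ (red2 A F w y).2 ∈ bb A F' x' := by
  refine ⟨D.rho_mem_bb y (hT _ hy.2), ?_⟩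
  rw [← red2_wOO_fst hww]
  exact D.rho_mem_bb (wOO hww y) (hT _ (hw _ hy.2))

/-- **Abstract form of `red_chart2`.**  `v = β x' / (α x') ^ q` is `≡ 1` at `v_∞` and kills the poles
which are not poles of `(α x')⁻¹`. -/
theorem TraceData.red_chart2 {q : ℕ} [NeZero q] {T : F → F'} (D : TraceData A F F' w q T)
    (hww : ∀ y, w (w y) = y) {z' : F'} {z : F}
    (hw : ∀ y, IsIntegral (Algebra.adjoin K {z}) y → IsIntegral (Algebra.adjoin K {z}) (w y))
    (v : OO A F w) (hv : (red2 A F w v).1 = 1)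
    (hT : ∀ y, IsIntegral (Algebra.adjoin K {z}) y →
      ∃ e : ℕ, IsIntegral (Algebra.adjoin K {z'}) (T (y * (v : F) ^ e)))
    (y : OO A F w) (hy : (y : F) ∈ chart A F w z) :
    (red2 A F w y).1 ∈ bb A F' z' ∧ (red2 A F w y).2 ∈ bb A F' z' := by
  have key : ∀ y : OO A F w, IsIntegral (Algebra.adjoin K {z}) (y : F) →
      (red2 A F w y).1 ∈ bb A F' z' := by
    intro y hy
    obtain ⟨e, he⟩ := hT _ hy
    have h1 := D.rho_mem_bb (x' := z') (y * v ^ e) he
    rwa [map_mul, map_pow, Prod.fst_mul, Prod.pow_fst, hv, one_pow, mul_one] at h1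
  refine ⟨key y hy.2, ?_⟩
  rw [← red2_wOO_fst hww]
  exact key (wOO hww y) (hw _ hy.2)

/-- **Residue fields (G3).**  `ε` is a unit at `v_∞`, and a suitable power of it makes any given
element integral at `v_0`.  Then every reduction at level `M q` is a reduction at level `M`. -/
theorem TraceData.exists_rho_eq {q : ℕ} [NeZero q] {T : F → F'} (D : TraceData A F F' w q T)
    (ε : OO A F w) (hε : (red2 A F w ε).1 ≠ 0)
    (hsmall : ∀ y : F, ∃ m : ℕ, w ((ε : F) ^ m * y) ∈ gaussSubring A F)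
    (y : gaussSubring A F) : ∃ y' : gaussSubring A F', rho A F' y' = rho A F y := by
  obtain ⟨m, hm⟩ := hsmall y
  let y₁ : OO A F w := ⟨(ε : F) ^ m * y, ⟨(gaussSubring A F).mul_mem
    ((gaussSubring A F).pow_mem ε.2.1 m) y.2, hm⟩⟩
  obtain ⟨h1, e1⟩ := D.rho_trace y₁
  obtain ⟨h2, e2⟩ := D.rho_trace ε
  have h3 : rho A F' ⟨T ε, h2⟩ ≠ 0 := by rw [e2]; exact hε
  have h4 := D.val.inv_mem ⟨T ε, h2⟩ h3
  refine ⟨⟨T y₁, h1⟩ * ⟨(T ε)⁻¹, h4⟩ ^ m, ?_⟩
  have h5 : rho A F' ⟨T ε, h2⟩ * rho A F' ⟨(T ε)⁻¹, h4⟩ = 1 := by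
    rw [← map_mul]
    have : (⟨T ε, h2⟩ : gaussSubring A F') * ⟨(T ε)⁻¹, h4⟩ = 1 := by
      apply Subtype.ext
      show T ε * (T ε)⁻¹ = 1
      refine mul_inv_cancel₀ ?_
      intro h0
      apply h3
      have : (⟨T ε, h2⟩ : gaussSubring A F') = 0 := Subtype.ext h0
      rw [this, map_zero]
    rw [this, map_one]
  have h6 : (red2 A F w y₁).1 = (red2 A F w ε).1 ^ m * rho A F y := by
    rw [red2_fst, red2_fst, ← map_pow, ← map_mul]
    rfl
  rw [map_mul, map_pow, e1, h6, ← e2]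
  calc rho A F' ⟨T ε, h2⟩ ^ m * rho A F y * rho A F' ⟨(T ε)⁻¹, h4⟩ ^ m
      = (rho A F' ⟨T ε, h2⟩ * rho A F' ⟨(T ε)⁻¹, h4⟩) ^ m * rho A F y := by
        rw [mul_pow]; ring
    _ = rho A F y := by rw [h5, one_pow, one_mul]

/-- **Abstract form of `int1`, `int2`**: `n`-root closedness at level `M` implies the fields. -/
theorem TraceData.int_of_level {q : ℕ} [NeZero q] {T : F → F'} (D : TraceData A F F' w q T)
    (ε : OO A F w) (hε : (red2 A F w ε).1 ≠ 0)
    (hsmall : ∀ y : F, ∃ m : ℕ, w ((ε : F) ^ m * y) ∈ gaussSubring A F) {x' : F'} {n : ℕ}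
    (hM : ∀ y : gaussSubring A F', rho A F' y ^ n ∈ bb A F' x' → rho A F' y ∈ bb A F' x')
    (y : gaussSubring A F) (hy : rho A F y ^ n ∈ bb A F' x') : rho A F y ∈ bb A F' x' := by
  obtain ⟨y', e⟩ := D.exists_rho_eq ε hε hsmall y
  rw [← e] at hy ⊢
  exact hM y' hy

end Fermat.Agent.S34.Nodal.Inst

end
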