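/-
C1 nodal core, instantiation, block G (helper248): dictionary between the KL-A language
(`S18.IsGauss`, `S18.chart`, `S18.IsChart`) and the language of `Inst/Defs.lean`
(`gaussSubring`, `rho`, `chart'`, `bb`) over a discrete valuation ring `A₀` (`S18.IsUnif A₀ ϖ₀`).

* `mem_gauss_iff`     : `gaussSubring A₀ L = Ow`
* `isQuot_of_hasNf`   : `Vert.IsQuot A₀ L`
* `rho_eq_zero_iff`, `rho_eq_iff` : `rho y = rho y'` iff `y ≡ y'` modulo the maximal ideal of `Ow`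
* `mem_chart'_iff`    : `chart' A₀ L x = S18.chart A₀ x`
* `int_of_isChart`    : `n`-root closedness of `bb A₀ L x`   (the field `int` at the good level)
* `fin_of_span`       : finiteness of `bb A₀ L x` over `k₀[xb]` (the field `fin_b1`)
-/
import Fermat.Agent.S34.Nodal.Inst.Defs
import Fermat.Agent.S18.Gauss.Basic
import Fermat.Agent.S18.Chart.Mem
import Fermat.Agent.S18.Chart.Const
import Fermat.Agent.BAD.LevelQ.Abs.Residue

set_option autoImplicit false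

noncomputable section

namespace Fermat.Agent.S34.Nodal.Inst.G

open ModularCurve Fermat.Agent.S18.Vert Fermat.Agent.S18 Polynomial IntermediateField

variable {K₀ : Type*} [Field K₀] {A₀ : ValuationSubring K₀} {ϖ₀ : K₀}
variable {L : IntermediateField K₀ (LaurentSeries K₀)} {Ow : ValuationSubring L}

theorem mem_of_mem_gauss (hG : IsGauss A₀ ϖ₀ L Ow) {y : L} (hy : y ∈ gaussSubring A₀ L) :
    y ∈ Ow := by
  obtain ⟨P, Q, hP, hQ, hQ0, h⟩ := hy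
  have hQ' : (⟨_, hQ⟩ : L) ≠ 0 := fun h0 => inc_ne_zero' hQ0 (congrArg Subtype.val h0)
  have h1 : y = (⟨_, hP⟩ : L) * (⟨_, hQ⟩ : L)⁻¹ := by
    rw [eq_mul_inv_iff_mul_eq₀ hQ']
    exact Subtype.ext h
  rw [h1]
  exact Ow.mul_mem _ _ (hG.mem P hP) (hG.inv_mem Q hQ hQ0)

theorem mem_gauss_of_mem (hL : Gauss.HasNf A₀ ϖ₀ L) (hG : IsGauss A₀ ϖ₀ L Ow) (h₀ : IsUnif A₀ ϖ₀)
    {y : L} (hy : y ∈ Ow) : y ∈ gaussSubring A₀ L := by
  by_cases hy0 : y = 0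
  · rw [hy0]; exact (gaussSubring A₀ L).zero_mem
  obtain ⟨n, P, Q, hP, hQ, hP0, hQ0, h⟩ := hL y y.2 (fun h => hy0 (Subtype.ext h))
  have hP' : (⟨_, hP⟩ : L) ≠ 0 := fun h => Gauss.iota_ne_zero hP0 (congrArg Subtype.val h)
  have h1 : y * ⟨_, hQ⟩ = algebraMap K₀ L ϖ₀ ^ n * ⟨_, hP⟩ := by
    apply Subtype.ext
    rw [← map_zpow₀]
    exact h
  have h2 : algebraMap K₀ L ϖ₀ ^ n = y * ⟨_, hQ⟩ * (⟨_, hP⟩ : L)⁻¹ := by
    rw [h1, mul_inv_cancel_right₀ hP']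
  have h3 : algebraMap K₀ L ϖ₀ ^ n ∈ Ow := by
    rw [h2]
    exact mul_mem (mul_mem hy (hG.mem Q hQ)) (hG.inv_mem P hP hP0)
  have hn : 0 ≤ n := by
    by_contra hlt
    apply hG.unif.inv_notMem
    have : (algebraMap K₀ L ϖ₀)⁻¹ = algebraMap K₀ L ϖ₀ ^ n * algebraMap K₀ L ϖ₀ ^ (-n - 1) := by
      rw [← zpow_add₀ hG.unif.ne_zero, ← zpow_neg_one]
      congr 1; ring
    rw [this]
    exact mul_mem h3 (hG.unif.zpow_mem (by omega))
  have hmem : ϖ₀ ^ n ∈ A₀ := h₀.zpow_mem hn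
  refine ⟨HahnSeries.C (⟨ϖ₀ ^ n, hmem⟩ : A₀) * P, Q, ?_, hQ, hQ0, ?_⟩
  · rw [map_mul, inc_C]
    exact mul_mem (L.algebraMap_mem _) hP
  · rw [map_mul, inc_C]
    exact h

/-- `gaussSubring A₀ L = Ow`. -/
theorem mem_gauss_iff (hL : Gauss.HasNf A₀ ϖ₀ L) (hG : IsGauss A₀ ϖ₀ L Ow) (h₀ : IsUnif A₀ ϖ₀)
    (y : L) : y ∈ gaussSubring A₀ L ↔ y ∈ Ow :=
  ⟨mem_of_mem_gauss hG, mem_gauss_of_mem hL hG h₀⟩

theorem isQuot_of_hasNf (hL : Gauss.HasNf A₀ ϖ₀ L) (h₀ : IsUnif A₀ ϖ₀) : IsQuot A₀ L := by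
  intro f
  by_cases hf0 : f = 0
  · exact ⟨0, 1, by rw [map_zero]; exact L.zero_mem, by rw [map_one]; exact L.one_mem, one_ne_zero,
      by rw [hf0]; simp⟩
  obtain ⟨n, P, Q, hP, hQ, hP0, hQ0, h⟩ := hL f f.2 (fun h => hf0 (Subtype.ext h))
  have hQne : Q ≠ 0 := by rintro rfl; exact hQ0 (map_zero _)
  rcases le_total 0 n with hn | hn
  · have hmem : ϖ₀ ^ n ∈ A₀ := h₀.zpow_mem hn
    refine ⟨HahnSeries.C (⟨ϖ₀ ^ n, hmem⟩ : A₀) * P, Q, ?_, hQ, hQne, ?_⟩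
    · rw [map_mul, inc_C]
      exact mul_mem (L.algebraMap_mem _) hP
    · rw [map_mul, inc_C]
      exact h
  · have hmem : ϖ₀ ^ (-n) ∈ A₀ := h₀.zpow_mem (by omega)
    have hz : ϖ₀ ^ (-n) ≠ 0 := zpow_ne_zero _ h₀.ne_zero
    refine ⟨P, HahnSeries.C (⟨ϖ₀ ^ (-n), hmem⟩ : A₀) * Q, hP, ?_, ?_, ?_⟩
    · rw [map_mul, inc_C]
      exact mul_mem (L.algebraMap_mem _) hQ
    · refine mul_ne_zero (C_ne_zero fun h0 => hz (congrArg Subtype.val h0)) hQne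
    · rw [map_mul, inc_C]
      have h' : (f : LaurentSeries K₀) * inc A₀ Q =
          algebraMap K₀ (LaurentSeries K₀) (ϖ₀ ^ n) * inc A₀ P := h
      calc (f : LaurentSeries K₀) * (algebraMap K₀ (LaurentSeries K₀) (ϖ₀ ^ (-n)) * inc A₀ Q)
          = algebraMap K₀ (LaurentSeries K₀) (ϖ₀ ^ (-n)) * ((f : LaurentSeries K₀) * inc A₀ Q) := by
            ring
        _ = algebraMap K₀ (LaurentSeries K₀) (ϖ₀ ^ (-n) * ϖ₀ ^ n) * inc A₀ P := by
            rw [h', map_mul]; ring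
        _ = inc A₀ P := by
            rw [← zpow_add₀ h₀.ne_zero, neg_add_cancel, zpow_zero, map_one, one_mul]

theorem rho_unif (h₀ : IsUnif A₀ ϖ₀) :
    rho A₀ L ⟨algebraMap K₀ L ϖ₀, algebraMap_mem_gauss A₀ L ⟨ϖ₀, h₀.mem⟩⟩ = 0 := by
  have h1 := rho_algebraMap A₀ L ⟨ϖ₀, h₀.mem⟩
  rw [h1]
  have h2 : IsLocalRing.residue A₀ ⟨ϖ₀, h₀.mem⟩ = 0 := by
    rw [Gauss.residue_eq_zero_iff h₀]
    show ϖ₀ / ϖ₀ ∈ A₀
    rw [div_self h₀.ne_zero]
    exact A₀.one_mem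
  rw [h2, map_zero]

/-- The kernel of `rho` is the maximal ideal of `Ow`. -/
theorem rho_eq_zero_iff (hL : Gauss.HasNf A₀ ϖ₀ L) (hG : IsGauss A₀ ϖ₀ L Ow) (h₀ : IsUnif A₀ ϖ₀)
    (y : gaussSubring A₀ L) : rho A₀ L y = 0 ↔ Ow.valuation (y : L) < 1 := by
  have hϖ : algebraMap K₀ L ϖ₀ ≠ 0 := hG.unif.ne_zero
  constructor
  · intro h
    obtain ⟨P, Q, hP, hQ, hQ0, e⟩ := y.2
    have h1 := rho_spec y hQ0 e
    rw [h, zero_mul] at h1
    obtain ⟨R, hR⟩ := Gauss.exists_eq_cst_mul h₀ P h1.symm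
    have hc : Gauss.cst ϖ₀ ≠ 0 := Gauss.cst_ne_zero h₀.ne_zero
    have hRL : coeffMap A₀.subtype R ∈ L := by
      have : coeffMap A₀.subtype R = (Gauss.cst ϖ₀)⁻¹ * coeffMap A₀.subtype P := by
        rw [hR, inv_mul_cancel_left₀ hc]
      rw [this]
      exact mul_mem (L.inv_mem (Gauss.cst_mem _)) hP
    have hQ' : (⟨_, hQ⟩ : L) ≠ 0 := fun h0 => inc_ne_zero' hQ0 (congrArg Subtype.val h0)
    apply BAD.LevelQ.Residue.val_lt_one_of_div_mem hG.unif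
    have h2 : (y : L) / algebraMap K₀ L ϖ₀ = (⟨_, hRL⟩ : L) * (⟨_, hQ⟩ : L)⁻¹ := by
      rw [eq_mul_inv_iff_mul_eq₀ hQ', div_mul_eq_mul_div, div_eq_iff hϖ]
      apply Subtype.ext
      show ((y : L) : LaurentSeries K₀) * inc A₀ Q = coeffMap A₀.subtype R * Gauss.cst ϖ₀
      rw [e, mul_comm]
      exact hR
    rw [h2]
    exact Ow.mul_mem _ _ (hG.mem R hRL) (hG.inv_mem Q hQ hQ0)
  · intro h
    have h1 := BAD.LevelQ.Residue.div_mem_of_val_lt_one hG.unif h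
    have h2 := mem_gauss_of_mem hL hG h₀ h1
    have h3 : y = ⟨algebraMap K₀ L ϖ₀, algebraMap_mem_gauss A₀ L ⟨ϖ₀, h₀.mem⟩⟩ *
        ⟨(y : L) / algebraMap K₀ L ϖ₀, h2⟩ := by
      apply Subtype.ext
      show (y : L) = algebraMap K₀ L ϖ₀ * ((y : L) / algebraMap K₀ L ϖ₀)
      rw [mul_div_cancel₀ _ hϖ]
    rw [h3, map_mul, rho_unif h₀, zero_mul]

theorem rho_eq_iff (hL : Gauss.HasNf A₀ ϖ₀ L) (hG : IsGauss A₀ ϖ₀ L Ow) (h₀ : IsUnif A₀ ϖ₀)
    (y y' : gaussSubring A₀ L) :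
    rho A₀ L y = rho A₀ L y' ↔ Ow.valuation ((y : L) - (y' : L)) < 1 := by
  rw [← sub_eq_zero, ← map_sub, rho_eq_zero_iff hL hG h₀]
  rfl

/-- `chart' A₀ L x = S18.chart A₀ x`. -/
theorem mem_chart'_iff (hL : Gauss.HasNf A₀ ϖ₀ L) (hG : IsGauss A₀ ϖ₀ L Ow)
    {E : IntermediateField K₀ L} {x : L} (hV : IsVert A₀ ϖ₀ Ow E) (hx : IsCoord A₀ ϖ₀ Ow E x)
    (y : L) : y ∈ chart' A₀ L x ↔ y ∈ S18.chart A₀.toSubring x := by
  rw [mem_chart', S18.mem_chart_iff hV hx, mem_gauss_iff hL hG hV.unif₀]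
  refine and_congr_right fun _ => ⟨fun h => ?_, isIntegral_adjoin_of_mem_chart_top⟩
  rw [S18.mem_chart_iff_isIntegral]
  exact isIntegral_of_forall_exists_algebraMap
    (fun r => ⟨⟨r.1, (mem_polyRing_top_iff x r.1).mpr r.2⟩, rfl⟩) h

/-- **`n`-root closedness of the special fibre of a good chart.** -/
theorem int_of_isChart (hL : Gauss.HasNf A₀ ϖ₀ L) (hG : IsGauss A₀ ϖ₀ L Ow)
    {E : IntermediateField K₀ L} {x : L} (hV : IsVert A₀ ϖ₀ Ow E) (hx : IsCoord A₀ ϖ₀ Ow E x)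
    (hC : IsChart Ow (algebraMap K₀ L ϖ₀) (S18.chart A₀.toSubring x)) {n : ℕ} (hn : 0 < n)
    (y : gaussSubring A₀ L) (hy : rho A₀ L y ^ n ∈ bb A₀ L x) : rho A₀ L y ∈ bb A₀ L x := by
  have h₀ := hV.unif₀
  obtain ⟨b, hb, e⟩ := hy
  have hbB : (b : L) ∈ S18.chart A₀.toSubring x := (mem_chart'_iff hL hG hV hx _).mp hb
  have h1 : Ow.valuation (((y : L)) ^ n - (b : L)) < 1 := by
    have := (rho_eq_iff hL hG h₀ (y ^ n) b).mp (by rw [map_pow, e])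
    exact this
  obtain ⟨b', hb', h2⟩ := BAD.LevelQ.IsChart.exists_congr_of_integral hG.unif hC
    (mem_of_mem_gauss hG y.2) (X ^ n - C (b : L)) (monic_X_pow_sub_C _ hn.ne') (by
      intro i
      rw [coeff_sub, coeff_X_pow, coeff_C]
      refine Subring.sub_mem _ ?_ ?_
      · split_ifs
        · exact Subring.one_mem _
        · exact Subring.zero_mem _
      · split_ifs
        · exact hbB
        · exact Subring.zero_mem _) (by
      rw [eval_sub, eval_pow, eval_X, eval_C]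
      exact h1)
  have hb'c : b' ∈ chart' A₀ L x := (mem_chart'_iff hL hG hV hx _).mpr hb'
  exact ⟨⟨b', hb'c.1⟩, hb'c, ((rho_eq_iff hL hG h₀ y ⟨b', hb'c.1⟩).mpr h2).symm⟩

/-- The class in `bb` of an element of `chart'`. -/
def toBB {x : L} (b : L) (hb : b ∈ chart' A₀ L x) : bb A₀ L x :=
  ⟨rho A₀ L ⟨b, hb.1⟩, ⟨⟨b, hb.1⟩, hb, rfl⟩⟩

theorem toBB_surjective {x : L} (z : bb A₀ L x) : ∃ b hb, toBB (x := x) b hb = z := by
  obtain ⟨z, y, hy, rfl⟩ := z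
  exact ⟨y, hy, rfl⟩

theorem self_mem_chart' {x : L} (hx : x ∈ gaussSubring A₀ L) : x ∈ chart' A₀ L x :=
  ⟨hx, by
    have : x = algebraMap (Algebra.adjoin K₀ {x}) L ⟨x, Algebra.subset_adjoin rfl⟩ := rfl
    show IsIntegral (Algebra.adjoin K₀ {x}) x
    rw [this]
    exact isIntegral_algebraMap⟩

theorem const_mem_chart' (x : L) (a : A₀) : algebraMap K₀ L (a : K₀) ∈ chart' A₀ L x :=
  ⟨algebraMap_mem_gauss A₀ L a, by
    have : algebraMap K₀ L (a : K₀) =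
        algebraMap (Algebra.adjoin K₀ {x}) L (algebraMap K₀ (Algebra.adjoin K₀ {x}) (a : K₀)) := rfl
    show IsIntegral (Algebra.adjoin K₀ {x}) (algebraMap K₀ L (a : K₀))
    rw [this]
    exact isIntegral_algebraMap⟩

/-- **Finiteness of the special fibre of a good chart over `k₀[xb]`.** -/
theorem fin_of_span {x : L} (hx : x ∈ gaussSubring A₀ L)
    (hfin : ∃ S : Finset L, (∀ e ∈ S, e ∈ chart' A₀ L x) ∧
      ∀ b ∈ chart' A₀ L x, b ∈ Submodule.span (A₀.toSubring.map (algebraMap K₀ L))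
        {y : L | ∃ (a : ℕ) (e : L), e ∈ S ∧ y = x ^ a * e}) :
    ∃ S : Finset (bb A₀ L x), ∀ y : bb A₀ L x,
      y ∈ Submodule.span (kk A₀)
        {z : bb A₀ L x | ∃ g ∈ S, ∃ a : ℕ, z = toBB x (self_mem_chart' hx) ^ a * g} := by
  classical
  obtain ⟨S, hS, hspan⟩ := hfin
  let g : L → bb A₀ L x := fun e => if h : e ∈ chart' A₀ L x then toBB e h else 0
  refine ⟨S.image g, fun y => ?_⟩
  obtain ⟨b, hb, rfl⟩ := toBB_surjective y
  set T := Submodule.span (kk A₀)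
    {z : bb A₀ L x | ∃ g' ∈ S.image g, ∃ a : ℕ, z = toBB x (self_mem_chart' hx) ^ a * g'} with hT
  have key : ∀ b ∈ Submodule.span (A₀.toSubring.map (algebraMap K₀ L))
      {y : L | ∃ (a : ℕ) (e : L), e ∈ S ∧ y = x ^ a * e},
      ∃ h : b ∈ chart' A₀ L x, toBB b h ∈ T := by
    intro b hb
    induction hb using Submodule.span_induction with
    | mem b hb =>
      obtain ⟨a, e, he, rfl⟩ := hb
      have h1 : x ^ a * e ∈ chart' A₀ L x :=
        (chart' A₀ L x).mul_mem ((chart' A₀ L x).pow_mem (self_mem_chart' hx) a) (hS e he)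
      refine ⟨h1, Submodule.subset_span ⟨g e, Finset.mem_image_of_mem g he, a, ?_⟩⟩
      have hg : g e = toBB e (hS e he) := dif_pos (hS e he)
      rw [hg]
      apply Subtype.ext
      show rho A₀ L ⟨x ^ a * e, h1.1⟩ = rho A₀ L ⟨x, hx⟩ ^ a * rho A₀ L ⟨e, (hS e he).1⟩
      rw [← map_pow, ← map_mul]
      rfl
    | zero =>
      refine ⟨(chart' A₀ L x).zero_mem, ?_⟩
      have : toBB (x := x) (0 : L) (chart' A₀ L x).zero_mem = 0 := by
        apply Subtype.ext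
        exact map_zero (rho A₀ L)
      rw [this]
      exact T.zero_mem
    | add b b' _ _ ih ih' =>
      obtain ⟨h, hT1⟩ := ih
      obtain ⟨h', hT2⟩ := ih'
      refine ⟨(chart' A₀ L x).add_mem h h', ?_⟩
      have : toBB (b + b') ((chart' A₀ L x).add_mem h h') = toBB b h + toBB b' h' := by
        apply Subtype.ext
        exact map_add (rho A₀ L) ⟨b, h.1⟩ ⟨b', h'.1⟩
      rw [this]
      exact T.add_mem hT1 hT2
    | smul r b _ ih =>
      obtain ⟨h, hT1⟩ := ih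
      obtain ⟨r, a, ha, rfl⟩ := r
      have h1 : algebraMap K₀ L a * b ∈ chart' A₀ L x :=
        (chart' A₀ L x).mul_mem (const_mem_chart' x ⟨a, ha⟩) h
      refine ⟨h1, ?_⟩
      have : toBB (algebraMap K₀ L a * b) h1 = IsLocalRing.residue A₀ ⟨a, ha⟩ • toBB b h := by
        apply Subtype.ext
        rw [Algebra.smul_def]
        show rho A₀ L ⟨algebraMap K₀ L a * b, h1.1⟩ =
          algebraMap (kk A₀) (LaurentSeries (kk A₀)) (IsLocalRing.residue A₀ ⟨a, ha⟩) *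
            rho A₀ L ⟨b, h.1⟩
        rw [← rho_algebraMap A₀ L ⟨a, ha⟩, ← map_mul]
        rfl
      have e2 : (⟨algebraMap K₀ L a, ⟨a, ha, rfl⟩⟩ : A₀.toSubring.map (algebraMap K₀ L)) • b =
          algebraMap K₀ L a * b := rfl
      simp only [e2]
      rw [this]
      exact T.smul_mem _ hT1
  obtain ⟨_, h2⟩ := key b (hspan b hb)
  exact h2

end Fermat.Agent.S34.Nodal.Inst.G

end
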