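/-
C1 nodal core, instantiation, block G (helper95): the field `root` from `IsVal`.
-/
import Fermat.Agent.S34.Nodal.Inst.G.HasRed

set_option autoImplicit false

noncomputable section

namespace Fermat.Agent.S34.Nodal.Inst

open ModularCurve Fermat.Agent.S18.Vert

variable {K : Type*} [Field K] {A : ValuationSubring K}

/-- **Abstract form of the field `root`**: a valuation ring is closed under `n`-th roots. -/
theorem IsVal.root {F : IntermediateField K (LaurentSeries K)} (hF : IsVal A F) {n : ℕ}
    (hn : 0 < n) (z : F) (hz : z ^ n ∈ gaussSubring A F) : z ∈ gaussSubring A F := by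
  rcases eq_or_ne z 0 with rfl | hz0
  · exact zero_mem _
  rcases hF z hz0 with h | ⟨h, h0⟩
  · exact h
  · exfalso
    have h1 : (⟨z⁻¹, h⟩ : gaussSubring A F) ^ n * ⟨z ^ n, hz⟩ = 1 := by
      apply Subtype.ext
      show z⁻¹ ^ n * z ^ n = 1
      rw [← mul_pow, inv_mul_cancel₀ hz0, one_pow]
    have h2 := congrArg (rho A F) h1
    rw [map_mul, map_pow, h0, zero_pow hn.ne', zero_mul, map_one] at h2
    exact zero_ne_one h2

end Fermat.Agent.S34.Nodal.Inst

end
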