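/-
C1 nodal core, instantiation, block G (helper95): ALL the fields of block G at `ℚ̄` level.
`root_FN`, `red_chart1_FN`, `red_chart2_FN` (in `Mod/Fields.lean`), `int1_FN`, `int2_FN`, `fin_b1_FN`.
-/
import Fermat.Agent.S34.Nodal.Inst.G.Root
import Fermat.Agent.S34.Nodal.Inst.G.Mod.Fields
import Fermat.Agent.S34.Nodal.Inst.G.Good.Main
import Fermat.Agent.S34.Nodal.Inst.Ur.Fields
import Fermat.Agent.S34.Nodal.Inst.G.Hyp

set_option autoImplicit false

noncomputable section

namespace Fermat.Agent.S34.Nodal.Inst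

open ModularCurve AlgebraicCurve Fermat.Agent.S18 Fermat.Agent.S18.Vert Fermat.Agent.S18.Descent
  Fermat.Agent.S18.Export Fermat.Agent.S24 Fermat.Agent.S24.B Fermat.Agent.GAL Fermat.Agent.GAL.E
  Fermat.Agent.Lib.UrBase Fermat.Agent.Lib

variable {M q : ℕ} [NeZero M] [NeZero q]

/-- **The field `root`.** -/
theorem root_FN (hq : q.Prime) (A : ValuationSubring Kbar) (hA : A.LiesOverPrime q) (N : ℕ)
    {n : ℕ} (hn : 0 < n) (z : FN N) (hz : z ^ n ∈ gaussSubring A (modularFunctionFieldBar N)) :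
    z ∈ gaussSubring A (modularFunctionFieldBar N) :=
  (isVal_FN A q hq hA N).root hn z hz

/-- `n`-root closedness at level `M` over `ℚ̄`. -/
theorem int_level_FN (hq : q.Prime) (hqM : ¬ q ∣ M) (A : ValuationSubring Kbar)
    (hA : A.LiesOverPrime q) (D : BaseData M q) {n : ℕ} (hn : 0 < n)
    (y : gaussSubring A (modularFunctionFieldBar M))
    (hy : rho A (modularFunctionFieldBar M) y ^ n ∈ bb A (modularFunctionFieldBar M) (D.xK Kbar)) :
    rho A (modularFunctionFieldBar M) y ∈ bb A (modularFunctionFieldBar M) (D.xK Kbar) := by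
  have : Fact q.Prime := ⟨hq⟩
  have h₀ := BAD.Bridge.isUnif_A0 A q hq hA
  have hqA : ((q : ℕ) : InertiaField.K0 A) / (q : InertiaField.K0 A) ∈ InertiaField.A0 A := by
    rw [div_self (by exact_mod_cast hq.ne_zero)]
    exact one_mem _
  have key := Ur.int_of (hyp_inertia hq A hA M M) (D.xK (InertiaField.K0 A)) n
    (fun y hy => int_base h₀ hqM hqA D hn y hy)
  have e : toBar (modularFunctionFieldFull M) (InertiaField.K0 A) (D.xK (InertiaField.K0 A)) =
      D.xK Kbar := baseChangeMap_xK D _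
  rw [e] at key
  exact key y hy

theorem int_level_FN_inv (hq : q.Prime) (hqM : ¬ q ∣ M) (A : ValuationSubring Kbar)
    (hA : A.LiesOverPrime q) (D : BaseData M q) {n : ℕ} (hn : 0 < n)
    (y : gaussSubring A (modularFunctionFieldBar M))
    (hy : rho A (modularFunctionFieldBar M) y ^ n ∈
      bb A (modularFunctionFieldBar M) (D.xK Kbar)⁻¹) :
    rho A (modularFunctionFieldBar M) y ∈ bb A (modularFunctionFieldBar M) (D.xK Kbar)⁻¹ := by
  have : Fact q.Prime := ⟨hq⟩
  have h₀ := BAD.Bridge.isUnif_A0 A q hq hA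
  have hqA : ((q : ℕ) : InertiaField.K0 A) / (q : InertiaField.K0 A) ∈ InertiaField.A0 A := by
    rw [div_self (by exact_mod_cast hq.ne_zero)]
    exact one_mem _
  have key := Ur.int_of (hyp_inertia hq A hA M M) (D.xK (InertiaField.K0 A))⁻¹ n
    (fun y hy => int_base_inv h₀ hqM hqA D hn y hy)
  have e : toBar (modularFunctionFieldFull M) (InertiaField.K0 A) (D.xK (InertiaField.K0 A)) =
      D.xK Kbar := baseChangeMap_xK D _
  rw [map_inv₀, e] at key
  exact key y hy

/-- **The field `int1`.** -/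
theorem int1_FN (hq : q.Prime) (hqM : ¬ q ∣ M) (A : ValuationSubring Kbar)
    (hA : A.LiesOverPrime q) {w : FN (M * q) ≃ₐ[Kbar] FN (M * q)} (hw : IsAL M q w)
    (D : BaseData M q) {n : ℕ} (hn : 0 < n) (y : gaussSubring A (modularFunctionFieldBar (M * q)))
    (hy : rho A (modularFunctionFieldBar (M * q)) y ^ n ∈
      bb A (modularFunctionFieldBar M) (D.xK Kbar)) :
    rho A (modularFunctionFieldBar (M * q)) y ∈ bb A (modularFunctionFieldBar M) (D.xK Kbar) :=
  int_FN hq hqM A hA hw (int_level_FN hq hqM A hA D hn) y hy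

/-- **The field `int2`.** -/
theorem int2_FN (hq : q.Prime) (hqM : ¬ q ∣ M) (A : ValuationSubring Kbar)
    (hA : A.LiesOverPrime q) {w : FN (M * q) ≃ₐ[Kbar] FN (M * q)} (hw : IsAL M q w)
    (D : BaseData M q) {n : ℕ} (hn : 0 < n) (y : gaussSubring A (modularFunctionFieldBar (M * q)))
    (hy : rho A (modularFunctionFieldBar (M * q)) y ^ n ∈
      bb A (modularFunctionFieldBar M) (D.xK Kbar)⁻¹) :
    rho A (modularFunctionFieldBar (M * q)) y ∈ bb A (modularFunctionFieldBar M) (D.xK Kbar)⁻¹ :=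
  int_FN hq hqM A hA hw (int_level_FN_inv hq hqM A hA D hn) y hy

theorem self_mem_chart' {K : Type*} [Field K] {A : ValuationSubring K}
    {F' : IntermediateField K (LaurentSeries K)} {x : F'} (hx : x ∈ gaussSubring A F') :
    x ∈ chart' A F' x := by
  refine ⟨hx, ?_⟩
  have h := isIntegral_algebraMap (R := Algebra.adjoin K {x}) (A := F')
    (x := ⟨x, Algebra.self_mem_adjoin_singleton K x⟩)
  exact h

theorem rho_self_mem_bb {K : Type*} [Field K] {A : ValuationSubring K}
    {F' : IntermediateField K (LaurentSeries K)} {x : F'} (hx : x ∈ gaussSubring A F') :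
    rho A F' ⟨x, hx⟩ ∈ bb A F' x :=
  ⟨⟨x, hx⟩, self_mem_chart' hx, rfl⟩

/-- transport of the finiteness statement along an equality of coordinates. -/
theorem fin_congr {K : Type*} [Field K] {A : ValuationSubring K}
    {F' : IntermediateField K (LaurentSeries K)} {x₁ x₂ : F'} (e : x₁ = x₂) (xb₁ : bb A F' x₁)
    (xb₂ : bb A F' x₂) (h : (xb₁ : LaurentSeries (kk A)) = xb₂)
    (H : ∃ S : Finset (bb A F' x₁), ∀ y : bb A F' x₁,
      y ∈ Submodule.span (kk A) {z : bb A F' x₁ | ∃ g ∈ S, ∃ a : ℕ, z = xb₁ ^ a * g}) :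
    ∃ S : Finset (bb A F' x₂), ∀ y : bb A F' x₂,
      y ∈ Submodule.span (kk A) {z : bb A F' x₂ | ∃ g ∈ S, ∃ a : ℕ, z = xb₂ ^ a * g} := by
  subst e
  have : xb₁ = xb₂ := Subtype.ext h
  subst this
  exact H

/-- **The field `fin_b1`**, for any `xb` which is the reduction of `x'`. -/
theorem fin_b1_FN (hq : q.Prime) (hqM : ¬ q ∣ M) (A : ValuationSubring Kbar)
    (hA : A.LiesOverPrime q) (D : BaseData M q)
    (hx : D.xK Kbar ∈ gaussSubring A (modularFunctionFieldBar M))
    (xb : bb A (modularFunctionFieldBar M) (D.xK Kbar))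
    (hxb : (xb : LaurentSeries (kk A)) = rho A (modularFunctionFieldBar M) ⟨D.xK Kbar, hx⟩) :
    ∃ S : Finset (bb A (modularFunctionFieldBar M) (D.xK Kbar)),
      ∀ y : bb A (modularFunctionFieldBar M) (D.xK Kbar),
        y ∈ Submodule.span (kk A)
          {z : bb A (modularFunctionFieldBar M) (D.xK Kbar) | ∃ g ∈ S, ∃ a : ℕ, z = xb ^ a * g} := by
  have : Fact q.Prime := ⟨hq⟩
  have h₀ := BAD.Bridge.isUnif_A0 A q hq hA
  have hqA : ((q : ℕ) : InertiaField.K0 A) / (q : InertiaField.K0 A) ∈ InertiaField.A0 A := by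
    rw [div_self (by exact_mod_cast hq.ne_zero)]
    exact one_mem _
  have hx₀ := xK_mem_gauss h₀ D
  obtain ⟨xb₀, hxb₀⟩ : ∃ xb₀ : bb (InertiaField.A0 A) (FK (InertiaField.K0 A) M)
      (D.xK (InertiaField.K0 A)), (xb₀ : LaurentSeries (kk (InertiaField.A0 A))) =
        rho (InertiaField.A0 A) (FK (InertiaField.K0 A) M) ⟨D.xK (InertiaField.K0 A), hx₀⟩ :=
    ⟨⟨_, rho_self_mem_bb hx₀⟩, rfl⟩
  have key0 := fin_base h₀ hqM hqA D xb₀ hxb₀
  have key := Ur.fin_of (hyp_inertia hq A hA M M) (D.xK (InertiaField.K0 A)) xb₀ key0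
  have e : toBar (modularFunctionFieldFull M) (InertiaField.K0 A) (D.xK (InertiaField.K0 A)) =
      D.xK Kbar := baseChangeMap_xK D _
  have h1 := rho_toBar (A := A) (K₀ := InertiaField.K0 A) (F₀ := modularFunctionFieldFull M)
    ⟨D.xK (InertiaField.K0 A), hx₀⟩
  have h2 : ((Ur.bbEquiv (hyp_inertia hq A hA M M) (D.xK (InertiaField.K0 A)) xb₀ :
      bb A (laurentBaseChange Kbar (modularFunctionFieldFull M)) _) : LaurentSeries (kk A)) =
      (xb : LaurentSeries (kk A)) := by
    rw [Ur.coe_bbEquiv, hxb, hxb₀]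
    refine h1.symm.trans ?_
    congr 1
  exact fin_congr e _ xb h2 key

end Fermat.Agent.S34.Nodal.Inst

end
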