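/-
C1 nodal core, instantiation, block G (helper95): EXPORT.  The six fields `root`, `red_chart1`,
`red_chart2`, `int1`, `int2`, `fin_b1` of `Contracts`, in the verbatim shape of the fields, for
`F = modularFunctionFieldBar (M * q)`, `F' = modularFunctionFieldBar M`, `w = Gal.wAlg W`,
`x' = D.xK Kbar` (`D : S18.BaseData M q`), `x = heckeAlphaBar Kbar M q x' * heckeBetaBar Kbar M q x'`.
No hypothesis relates `q` and `n`.
-/
import Fermat.Agent.S34.Nodal.Inst.G.Final
import Fermat.Agent.S34.Nodal.Inst.Gal.Basic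

set_option autoImplicit false

noncomputable section

namespace Fermat.Agent.S34.Nodal.Inst.GX

open ModularCurve AlgebraicCurve Fermat.Agent.S18 Fermat.Agent.S18.Vert Fermat.Agent.S24
  Fermat.Agent.S24.B Fermat.Agent.GAL Fermat.Agent.GAL.E

variable {M q : ℕ} [NeZero M] [NeZero q]

theorem isAL_wAlg (W : S34.ALInv M q) : IsAL M q (Gal.wAlg W) :=
  ⟨W.w_alpha, W.w_beta⟩

theorem root (hq : q.Prime) (A : ValuationSubring Kbar) (hA : A.LiesOverPrime q) {n : ℕ}
    (hn : 0 < n) : ∀ z : FN (M * q), z ^ n ∈ gaussSubring A (modularFunctionFieldBar (M * q)) →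
      z ∈ gaussSubring A (modularFunctionFieldBar (M * q)) :=
  fun z hz => root_FN hq A hA (M * q) hn z hz

theorem red_chart1 (hq : q.Prime) (hqM : ¬ q ∣ M) (A : ValuationSubring Kbar)
    (hA : A.LiesOverPrime q) (W : S34.ALInv M q) {x' : FN M} (hx : BaseOK M q x') :
    ∀ y : OO A (modularFunctionFieldBar (M * q)) (Gal.wAlg W),
      (y : FN (M * q)) ∈ chart A (modularFunctionFieldBar (M * q)) (Gal.wAlg W)
        (heckeAlphaBar Kbar M q x' * heckeBetaBar Kbar M q x') →
      (red2 A (modularFunctionFieldBar (M * q)) (Gal.wAlg W) y).1 ∈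
          bb A (modularFunctionFieldBar M) x' ∧
        (red2 A (modularFunctionFieldBar (M * q)) (Gal.wAlg W) y).2 ∈
          bb A (modularFunctionFieldBar M) x' :=
  fun y hy => red_chart1_FN hq hqM A hA (isAL_wAlg W) hx y hy

theorem red_chart2 (hq : q.Prime) (hqM : ¬ q ∣ M) (A : ValuationSubring Kbar)
    (hA : A.LiesOverPrime q) (W : S34.ALInv M q) {x' : FN M} (hx : BaseOK M q x') :
    ∀ y : OO A (modularFunctionFieldBar (M * q)) (Gal.wAlg W),
      (y : FN (M * q)) ∈ chart A (modularFunctionFieldBar (M * q)) (Gal.wAlg W)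
        (heckeAlphaBar Kbar M q x' * heckeBetaBar Kbar M q x')⁻¹ →
      (red2 A (modularFunctionFieldBar (M * q)) (Gal.wAlg W) y).1 ∈
          bb A (modularFunctionFieldBar M) x'⁻¹ ∧
        (red2 A (modularFunctionFieldBar (M * q)) (Gal.wAlg W) y).2 ∈
          bb A (modularFunctionFieldBar M) x'⁻¹ :=
  fun y hy => red_chart2_FN hq hqM A hA (isAL_wAlg W) hx y hy

theorem int1 (hq : q.Prime) (hqM : ¬ q ∣ M) (A : ValuationSubring Kbar)
    (hA : A.LiesOverPrime q) (W : S34.ALInv M q) (D : BaseData M q) {n : ℕ} (hn : 0 < n) :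
    ∀ y : gaussSubring A (modularFunctionFieldBar (M * q)),
      rho A (modularFunctionFieldBar (M * q)) y ^ n ∈
          bb A (modularFunctionFieldBar M) (D.xK Kbar) →
        rho A (modularFunctionFieldBar (M * q)) y ∈ bb A (modularFunctionFieldBar M) (D.xK Kbar) :=
  fun y hy => int1_FN hq hqM A hA (isAL_wAlg W) D hn y hy

theorem int2 (hq : q.Prime) (hqM : ¬ q ∣ M) (A : ValuationSubring Kbar)
    (hA : A.LiesOverPrime q) (W : S34.ALInv M q) (D : BaseData M q) {n : ℕ} (hn : 0 < n) :
    ∀ y : gaussSubring A (modularFunctionFieldBar (M * q)),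
      rho A (modularFunctionFieldBar (M * q)) y ^ n ∈
          bb A (modularFunctionFieldBar M) (D.xK Kbar)⁻¹ →
        rho A (modularFunctionFieldBar (M * q)) y ∈
          bb A (modularFunctionFieldBar M) (D.xK Kbar)⁻¹ :=
  fun y hy => int2_FN hq hqM A hA (isAL_wAlg W) D hn y hy

/-- `xb` is any element of `bb` which is the reduction of `x'`. -/
theorem fin_b1 (hq : q.Prime) (hqM : ¬ q ∣ M) (A : ValuationSubring Kbar)
    (hA : A.LiesOverPrime q) (D : BaseData M q)
    (hx : D.xK Kbar ∈ gaussSubring A (modularFunctionFieldBar M))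
    (xb : bb A (modularFunctionFieldBar M) (D.xK Kbar))
    (hxb : (xb : LaurentSeries (kk A)) = rho A (modularFunctionFieldBar M) ⟨D.xK Kbar, hx⟩) :
    ∃ S : Finset (bb A (modularFunctionFieldBar M) (D.xK Kbar)),
      ∀ y : bb A (modularFunctionFieldBar M) (D.xK Kbar),
        y ∈ Submodule.span (kk A)
          {z : bb A (modularFunctionFieldBar M) (D.xK Kbar) | ∃ g ∈ S, ∃ a : ℕ, z = xb ^ a * g} :=
  fin_b1_FN hq hqM A hA D hx xb hxb

end Fermat.Agent.S34.Nodal.Inst.GX

end
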